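import Mathlib
import Fermat.Agent.H29.ESB.Interfaces
import Fermat.Agent.H29.PlaceBasics

/-!
# P-ES / ES-B, row ESB-5: `Fermat.Agent.H29.InjectivityStatement`

A divisor of `Fk` whose base change to `FK` is principal is principal.  The divisor of a
function `h` of `FK` with `div h = bc_* D` is Galois stable, so `h` is an eigenfunction of every
Galois element; normalising the leading coefficient makes it Galois fixed, hence it descends.
-/

set_option autoImplicit false

noncomputable section

open AlgebraicCurve IntermediateField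

namespace Fermat.Agent.H81.ESB

open Fermat.Agent.H29

section generalities

variable {K F : Type*} [Field K] [Field F] [Algebra K F]

/-- Two places with the same order function are equal. -/
theorem place_eq_of_ord_eq {v w : Place K F} (h : ∀ f : F, v.ord f = w.ord f) : v = w := by
  apply Place.ext
  ext f
  rw [place_mem_iff, place_mem_iff, h f]

/-- The order of a nonzero constant multiple. -/
theorem ord_const_mul (v : Place K F) {c : K} (hc : c ≠ 0) (f : F) :
    v.ord (algebraMap K F c * f) = v.ord f := by
  rcases eq_or_ne f 0 with rfl | hf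
  · simp
  · rw [v.ord_mul ((map_ne_zero (algebraMap K F)).mpr hc) hf, place_ord_algebraMap, zero_add]

/-- The order at `w` of `g • f` is the order of `f` at `g⁻¹ • w`. -/
theorem ord_smul_eq (g : SemilinearAut K F) (w : Place K F) (f : F) :
    w.ord (g • f) = (g⁻¹ • w).ord f := by
  have h := SemilinearAut.ord_smul g (g⁻¹ • w) f
  rwa [smul_inv_smul] at h

end generalities

section descent

variable {k K Fk FK : Type} [Field k] [Field K] [Field Fk] [Field FK]
  [Algebra k Fk] [Algebra K FK]

/-- An unramified extension map of places is injective. -/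
theorem isPlaceExt_injective {E : ConstExt k K Fk FK} {ext : Place k Fk → Place K FK}
    (hext : IsPlaceExt E ext) : Function.Injective ext := by
  intro v v' hvv
  apply place_eq_of_ord_eq
  intro f
  rw [← hext v f, ← hext v' f, hvv]

/-- The value of a base-changed divisor at an extended place. -/
theorem divisorBC_apply_ext {E : ConstExt k K Fk FK} {ext : Place k Fk → Place K FK}
    (hext : IsPlaceExt E ext) (D : Divisor k Fk) (v : Place k Fk) :
    divisorBC ext D (ext v) = D v :=
  Finsupp.mapDomain_apply (isPlaceExt_injective hext) D v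

/-- Galois elements fix every extended place. -/
theorem galois_smul_ext [IsAlgClosed k] [CharZero k] [IsAlgClosed K] [CharZero K]
    (h2c : PlaceExtUniqueStatement) {E : ConstExt k K Fk FK} (Gd : GaloisData E)
    {ext : Place k Fk → Place K FK} (hext : IsPlaceExt E ext) (g : Gd.G) (v : Place k Fk) :
    Gd.ρ g • ext v = ext v := by
  refine h2c k K Fk FK E v _ _ (fun f => ?_) (fun f => hext v f)
  have h := SemilinearAut.ord_smul (Gd.ρ g) (ext v) (E.bc f)
  rw [Gd.fix_bc g f] at h
  rw [h, hext v f]

/-- A base-changed divisor is Galois stable. -/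
theorem galois_smul_divisorBC [IsAlgClosed k] [CharZero k] [IsAlgClosed K] [CharZero K]
    (h2c : PlaceExtUniqueStatement) {E : ConstExt k K Fk FK} (Gd : GaloisData E)
    {ext : Place k Fk → Place K FK} (hext : IsPlaceExt E ext) (g : Gd.G) (D : Divisor k Fk) :
    Gd.ρ g • divisorBC ext D = divisorBC ext D := by
  induction D using Finsupp.induction with
  | zero => simp
  | single_add v n D _ _ ih =>
      rw [map_add, smul_add, ih]
      congr 1
      change Gd.ρ g • Finsupp.mapDomain ext (Finsupp.single v n) = Finsupp.mapDomain ext _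
      rw [Finsupp.mapDomain_single, SemilinearAut.smul_single, galois_smul_ext h2c Gd hext g v]

/-- **ESB-5**, without the unused hypothesis. -/
theorem injectivity_aux (h0 : ConstantStatement) (h2c : PlaceExtUniqueStatement) :
    InjectivityStatement := by
  intro k K Fk FK _ _ _ _ _ _ _ _ _ _ E Gd ext hext D hD
  obtain ⟨h, hh0, hh⟩ := hD
  -- normalise the leading coefficient
  have hl0 : Gd.lead h ≠ 0 := Gd.lead_ne h hh0
  set h' : FK := algebraMap K FK (Gd.lead h)⁻¹ * h with hh'def
  have hh'0 : h' ≠ 0 :=
    mul_ne_zero ((map_ne_zero (algebraMap K FK)).mpr (inv_ne_zero hl0)) hh0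
  have hh' : ∀ w : Place K FK, divisorBC ext D w = w.ord h' := by
    intro w
    rw [hh w, hh'def, ord_const_mul w (inv_ne_zero hl0)]
  have hlead : Gd.lead h' = 1 := by
    rw [hh'def, Gd.lead_smul, inv_mul_cancel₀ hl0]
  -- `h'` is Galois fixed
  have hfix : ∀ g : Gd.G, Gd.ρ g • h' = h' := by
    intro g
    have hgh0 : Gd.ρ g • h' ≠ 0 := by
      rw [SemilinearAut.smul_def]
      exact (map_ne_zero (SemilinearAut.toRingAut (Gd.ρ g))).mpr hh'0
    have hord : ∀ w : Place K FK, w.ord (Gd.ρ g • h' * h'⁻¹) = 0 := by
      intro w
      have e1 : w.ord (Gd.ρ g • h') = w.ord h' := by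
        rw [ord_smul_eq, ← hh', ← hh', ← SemilinearAut.divisor_smul_apply,
          galois_smul_divisorBC h2c Gd hext g D]
      rw [w.ord_mul hgh0 (inv_ne_zero hh'0), w.ord_inv, e1]
      ring
    obtain ⟨c, hc⟩ := h0 K FK (E.bc E.x) E.bcx_transc E.bcx_fin (Gd.ρ g • h' * h'⁻¹)
      (mul_ne_zero hgh0 (inv_ne_zero hh'0)) hord
    have hgh : Gd.ρ g • h' = algebraMap K FK c * h' := by
      rw [hc, mul_assoc, inv_mul_cancel₀ hh'0, mul_one]
    have hc1 : c = 1 := by
      have h1 := Gd.lead_galois g h'
      rw [hgh, Gd.lead_smul, hlead, map_one, mul_one] at h1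
      exact h1
    rw [hgh, hc1, map_one, one_mul]
  obtain ⟨f, hf⟩ := Gd.fixed h' hfix
  refine ⟨f, ?_, fun v => ?_⟩
  · rintro rfl
    rw [map_zero] at hf
    exact hh'0 hf.symm
  · rw [← hext v f, hf, ← hh', divisorBC_apply_ext hext]

/-- **ESB-5** `InjectivityStatement` from `ConstantStatement`, `PlaceExtUniqueStatement` and
`DivisorBCStatement` (the last one is not needed). -/
theorem injectivity (h0 : ConstantStatement) (h2c : PlaceExtUniqueStatement)
    (_h4 : DivisorBCStatement) : InjectivityStatement :=
  injectivity_aux h0 h2c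

end descent

end Fermat.Agent.H81.ESB
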